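/-
S15 / Dict / AN : `(℘(z+h) - e)(℘ z - e)` is a non-zero constant.  Architect helper260.
(proof: helper111)
-/
import Fermat.Agent.S15.Dict.AN.Tools.LiouvilleCor
import Fermat.Agent.S15.Dict.AN.Tools.POrder

set_option autoImplicit false

namespace Fermat.Agent.S15.Dict.AN

open Filter Topology

/-- For a half period `h`, `f(z) = (℘(z+h) - ℘ h)(℘ z - ℘ h)` is a non-zero constant.
Proof (Liouville, only order estimates).  `f` is meromorphic and `Λ`-periodic.
* `z ∈ Λ`: `℘ - ℘ h` has order `-2` at `z` (`order_P_sub_const`), `℘(· + h) - ℘ h` has at `z` the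
  order of `℘ - ℘ h` at `z + h` (`order_comp_add`), which is `≥ 2` (`two_le_order_P_sub`, with
  `℘(z+h) = ℘ h`, `℘'(z+h) = ℘'(h) = 0`).
* `z + h ∈ Λ`: symmetric (`z ≡ -h ≡ h`).
* otherwise both factors are analytic at `z`.
So `f = κ` eventually near every point (`liouville_eventually`) and at every continuity point.
`κ ≠ 0`: the order of `f` at `0` is the sum of two orders `≠ ⊤` (`order_P_sub_const_ne_top`), so
`f` is not eventually `0` near `0`. -/
theorem exists_half_const (L : PeriodPair) {h : ℂ} (h2 : 2 * h ∈ L.lattice) (hn : h ∉ L.lattice) :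
    ∃ κ : ℂ, κ ≠ 0 ∧ ∀ z, z ∉ L.lattice → z + h ∉ L.lattice →
      (L.weierstrassP (z + h) - L.weierstrassP h) * (L.weierstrassP z - L.weierstrassP h) = κ := by
  set F : ℂ → ℂ := fun z => L.weierstrassP z - L.weierstrassP h with hF
  have hFm : Meromorphic F := fun z =>
    (L.meromorphic_weierstrassP z).sub (MeromorphicAt.const _ z)
  have hGm : Meromorphic (fun z => F (z + h)) := fun z =>
    MeromorphicAt.comp_analyticAt (f := F) (g := fun z : ℂ => z + h) (hFm (z + h)) (by fun_prop)
  have hGo : ∀ z, meromorphicOrderAt (fun z => F (z + h)) z = meromorphicOrderAt F (z + h) :=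
    fun z => order_comp_add F h z
  have hfm : Meromorphic (fun z => F (z + h) * F z) := fun z => (hGm z).mul (hFm z)
  have hper : ∀ z : ℂ, ∀ l ∈ L.lattice, F (z + l + h) * F (z + l) = F (z + h) * F z := by
    intro z l hl
    simp only [hF]
    rw [add_right_comm z l h, P_add_mem L _ hl, P_add_mem L _ hl]
  have hP'h : L.derivWeierstrassP h = 0 := P'_eq_zero_of_two_mul_mem L h2
  have hFa : ∀ z, z ∉ L.lattice → AnalyticAt ℂ F z := fun z hz =>
    (analyticAt_P L hz).sub analyticAt_const
  have hGa : ∀ z, z + h ∉ L.lattice → AnalyticAt ℂ (fun z => F (z + h)) z := fun z hz =>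
    AnalyticAt.fun_comp (hFa _ hz) (by fun_prop)
  have hord : ∀ z, 0 ≤ meromorphicOrderAt (fun z => F (z + h) * F z) z := by
    intro z
    by_cases hz : z ∈ L.lattice
    · have hzh : z + h ∉ L.lattice := fun hc => hn (by
        have := L.lattice.sub_mem hc hz
        rwa [add_sub_cancel_left] at this)
      have h1 : ((2 : ℤ) : WithTop ℤ) ≤ meromorphicOrderAt (fun z => F (z + h)) z := by
        rw [hGo]
        exact two_le_order_P_sub L hzh
          (P_eq_of_sub_mem L (by rwa [add_sub_cancel_right]))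
          (by rw [P'_eq_of_sub_mem L (z := z + h) (w := h) (by rwa [add_sub_cancel_right]), hP'h])
      have h3 : ((-2 : ℤ) : WithTop ℤ) ≤ meromorphicOrderAt F z :=
        (order_P_sub_const L hz _).ge
      exact order_mul_ge (hGm z) (hFm z) h1 h3
    · by_cases hzh : z + h ∈ L.lattice
      · have h1 : ((-2 : ℤ) : WithTop ℤ) ≤ meromorphicOrderAt (fun z => F (z + h)) z := by
          rw [hGo]
          exact (order_P_sub_const L hzh _).ge
        have h3 : ((2 : ℤ) : WithTop ℤ) ≤ meromorphicOrderAt F z :=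
          two_le_order_P_sub L hz (P_eq_of_add_mem L hzh)
            (by rw [P'_eq_neg_of_add_mem L hzh, hP'h, neg_zero])
        exact order_mul_ge (hGm z) (hFm z) h1 h3
      · exact ((hGa z hzh).mul (hFa z hz)).meromorphicOrderAt_nonneg
  obtain ⟨κ, hκ⟩ := liouville_eventually L hfm hper hord
  refine ⟨κ, ?_, fun z hz hzh => ?_⟩
  · rintro rfl
    have h1 : meromorphicOrderAt (fun z => F (z + h) * F z) 0 = ⊤ :=
      meromorphicOrderAt_eq_top_iff.2 (hκ 0)
    have h3 : meromorphicOrderAt (fun z => F (z + h) * F z) 0 =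
        meromorphicOrderAt (fun z => F (z + h)) 0 + meromorphicOrderAt F 0 :=
      meromorphicOrderAt_mul (hGm 0) (hFm 0)
    rw [h3, WithTop.add_eq_top, hGo] at h1
    rcases h1 with h1 | h1
    · exact order_P_sub_const_ne_top L _ _ h1
    · exact order_P_sub_const_ne_top L _ _ h1
  · have hc : ContinuousAt (fun z => F (z + h) * F z) z :=
      ((hGa z hzh).mul (hFa z hz)).continuousAt
    have hlim : Tendsto (fun z => F (z + h) * F z) (𝓝[≠] z) (𝓝 κ) :=
      (tendsto_const_nhds (x := κ)).congr' ((hκ z).mono fun _ hw => hw.symm)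
    exact tendsto_nhds_unique (hc.tendsto.mono_left nhdsWithin_le_nhds) hlim

end Fermat.Agent.S15.Dict.AN
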