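/-
S15 / Dict / AN : half periods, definitions.  Architect helper260.
-/
import Mathlib

set_option autoImplicit false

namespace Fermat.Agent.S15.Dict.AN

/-- `h₁, h₂, h₃` represent the three non-trivial classes of `½Λ/Λ`. -/
structure IsHalf (L : PeriodPair) (h₁ h₂ h₃ : ℂ) : Prop where
  two₁ : 2 * h₁ ∈ L.lattice
  two₂ : 2 * h₂ ∈ L.lattice
  two₃ : 2 * h₃ ∈ L.lattice
  not₁ : h₁ ∉ L.lattice
  not₂ : h₂ ∉ L.lattice
  not₃ : h₃ ∉ L.lattice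
  sum : h₁ + h₂ + h₃ ∈ L.lattice

variable {L L' : PeriodPair} {h₁ h₂ h₃ : ℂ}

theorem isHalf_std (L : PeriodPair) : IsHalf L (L.ω₁ / 2) (L.ω₂ / 2) ((L.ω₁ + L.ω₂) / 2) where
  two₁ := by
    rw [mul_div_cancel₀ _ (two_ne_zero' ℂ)]
    exact L.ω₁_mem_lattice
  two₂ := by
    rw [mul_div_cancel₀ _ (two_ne_zero' ℂ)]
    exact L.ω₂_mem_lattice
  two₃ := by
    rw [mul_div_cancel₀ _ (two_ne_zero' ℂ)]
    exact add_mem L.ω₁_mem_lattice L.ω₂_mem_lattice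
  not₁ := L.ω₁_div_two_notMem_lattice
  not₂ := L.ω₂_div_two_notMem_lattice
  not₃ := by
    have h := (L.mul_ω₁_add_mul_ω₂_mem_lattice (α := 1 / 2) (β := 1 / 2)).not.mpr (by norm_num)
    intro h'
    apply h
    convert h' using 1
    push_cast
    ring
  sum := by
    have h := add_mem L.ω₁_mem_lattice L.ω₂_mem_lattice
    convert h using 1
    ring

theorem IsHalf.swap₁₂ (H : IsHalf L h₁ h₂ h₃) : IsHalf L h₂ h₁ h₃ :=
  ⟨H.two₂, H.two₁, H.two₃, H.not₂, H.not₁, H.not₃, by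
    convert H.sum using 1
    ring⟩

theorem IsHalf.swap₂₃ (H : IsHalf L h₁ h₂ h₃) : IsHalf L h₁ h₃ h₂ :=
  ⟨H.two₁, H.two₃, H.two₂, H.not₁, H.not₃, H.not₂, by
    convert H.sum using 1
    ring⟩

theorem IsHalf.rot (H : IsHalf L h₁ h₂ h₃) : IsHalf L h₂ h₃ h₁ :=
  ⟨H.two₂, H.two₃, H.two₁, H.not₂, H.not₃, H.not₁, by
    convert H.sum using 1
    ring⟩

/-- `h₁ + h₂ ≡ h₃`. -/
theorem IsHalf.add_sub_mem (H : IsHalf L h₁ h₂ h₃) : h₁ + h₂ - h₃ ∈ L.lattice := by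
  convert sub_mem H.sum H.two₃ using 1
  ring

theorem IsHalf.add_notMem (H : IsHalf L h₁ h₂ h₃) : h₁ + h₂ ∉ L.lattice := by
  intro h
  apply H.not₃
  convert sub_mem H.sum h using 1
  ring

theorem IsHalf.sub_notMem (H : IsHalf L h₁ h₂ h₃) : h₁ - h₂ ∉ L.lattice := by
  intro h
  apply H.add_notMem
  convert add_mem h H.two₂ using 1
  ring

private theorem Defs_notMem_of_le {N : ℕ} (hN : Odd N)
    (hmul : ∀ l ∈ L'.lattice, (N : ℂ) * l ∈ L.lattice) {h : ℂ} (h2 : 2 * h ∈ L.lattice)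
    (hn : h ∉ L.lattice) : h ∉ L'.lattice := by
  intro h'
  obtain ⟨m, rfl⟩ := hN
  apply hn
  have h3 : (m : ℤ) • (2 * h) ∈ L.lattice := Submodule.smul_mem _ _ h2
  convert sub_mem (hmul h h') h3 using 1
  rw [zsmul_eq_mul]
  push_cast
  ring

/-- Half periods of `L` are half periods of an overlattice of odd index. -/
theorem IsHalf.of_le (H : IsHalf L h₁ h₂ h₃) (hle : L.lattice ≤ L'.lattice) {N : ℕ} (hN : Odd N)
    (hmul : ∀ l ∈ L'.lattice, (N : ℂ) * l ∈ L.lattice) : IsHalf L' h₁ h₂ h₃ :=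
  ⟨hle H.two₁, hle H.two₂, hle H.two₃, Defs_notMem_of_le hN hmul H.two₁ H.not₁,
    Defs_notMem_of_le hN hmul H.two₂ H.not₂, Defs_notMem_of_le hN hmul H.two₃ H.not₃,
    hle H.sum⟩

end Fermat.Agent.S15.Dict.AN
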