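/-
S15 / Dict / AN : `(℘(z+h₁) - e₁)(℘ z - e₁) = (e₁ - e₂)(e₁ - e₃)`, the `e_i` are distinct.
Architect helper260.
-/
import Fermat.Agent.S15.Dict.AN.Half.Defs
import Fermat.Agent.S15.Dict.AN.Half.Const

set_option autoImplicit false

namespace Fermat.Agent.S15.Dict.AN

variable {L : PeriodPair} {h₁ h₂ h₃ : ℂ}

/-- the constant of `exists_half_const`, evaluated at `z = h₂`. -/
private theorem MulEq_const (H : IsHalf L h₁ h₂ h₃) :
    (L.weierstrassP h₁ - L.weierstrassP h₂) * (L.weierstrassP h₁ - L.weierstrassP h₃) ≠ 0 ∧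
    ∀ z, z ∉ L.lattice → z + h₁ ∉ L.lattice →
      (L.weierstrassP (z + h₁) - L.weierstrassP h₁) * (L.weierstrassP z - L.weierstrassP h₁)
        = (L.weierstrassP h₁ - L.weierstrassP h₂) * (L.weierstrassP h₁ - L.weierstrassP h₃) := by
  obtain ⟨κ, hκ, h⟩ := exists_half_const L H.two₁ H.not₁
  have h21 : h₂ + h₁ ∉ L.lattice := by
    rw [add_comm]
    exact H.add_notMem
  have hP : L.weierstrassP (h₂ + h₁) = L.weierstrassP h₃ := by
    apply P_eq_of_sub_mem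
    rw [add_comm]
    exact H.add_sub_mem
  have h2 := h h₂ H.not₂ h21
  rw [hP] at h2
  have hκ' : κ =
      (L.weierstrassP h₁ - L.weierstrassP h₂) * (L.weierstrassP h₁ - L.weierstrassP h₃) := by
    rw [← h2]
    ring
  rw [← hκ']
  exact ⟨hκ, h⟩

/-- Evaluate the constant of `exists_half_const` at `z = h₂` (`h₂ + h₁ ≡ h₃`). -/
theorem IsHalf.mul_eq (H : IsHalf L h₁ h₂ h₃) {z : ℂ} (hz : z ∉ L.lattice)
    (hz' : z + h₁ ∉ L.lattice) :
    (L.weierstrassP (z + h₁) - L.weierstrassP h₁) * (L.weierstrassP z - L.weierstrassP h₁)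
      = (L.weierstrassP h₁ - L.weierstrassP h₂) * (L.weierstrassP h₁ - L.weierstrassP h₃) :=
  (MulEq_const H).2 z hz hz'

theorem IsHalf.ne₁₂ (H : IsHalf L h₁ h₂ h₃) : L.weierstrassP h₁ ≠ L.weierstrassP h₂ :=
  sub_ne_zero.1 (left_ne_zero_of_mul (MulEq_const H).1)

theorem IsHalf.ne₁₃ (H : IsHalf L h₁ h₂ h₃) : L.weierstrassP h₁ ≠ L.weierstrassP h₃ :=
  sub_ne_zero.1 (right_ne_zero_of_mul (MulEq_const H).1)

theorem IsHalf.ne₂₃ (H : IsHalf L h₁ h₂ h₃) : L.weierstrassP h₂ ≠ L.weierstrassP h₃ :=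
  H.rot.ne₁₂

/-- `℘ z ≠ e₁` unless `z ≡ h₁`. -/
theorem IsHalf.P_ne (H : IsHalf L h₁ h₂ h₃) {z : ℂ} (hz : z ∉ L.lattice)
    (hz' : z + h₁ ∉ L.lattice) : L.weierstrassP z ≠ L.weierstrassP h₁ := by
  intro h
  apply (MulEq_const H).1
  rw [← H.mul_eq hz hz', h, sub_self, mul_zero]

end Fermat.Agent.S15.Dict.AN
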