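/-
S15 / Dict / AN : Vieta for `4X³ - g₂X - g₃ = 4(X-e₁)(X-e₂)(X-e₃)`, the discriminant.
Architect helper260.
-/
import Fermat.Agent.S15.Dict.AN.Half.MulEq

set_option autoImplicit false

namespace Fermat.Agent.S15.Dict.AN

variable {L : PeriodPair} {h₁ h₂ h₃ : ℂ}

/-- `e₁` is a root of the cubic (`PeriodPair.derivWeierstrassP_sq`, `P'_eq_zero_of_two_mul_mem`). -/
theorem IsHalf.root₁ (H : IsHalf L h₁ h₂ h₃) :
    4 * L.weierstrassP h₁ ^ 3 - L.g₂ * L.weierstrassP h₁ - L.g₃ = 0 := by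
  have h := L.derivWeierstrassP_sq h₁ H.not₁
  rw [P'_eq_zero_of_two_mul_mem L H.two₁] at h
  rw [← h]
  ring

/-- three distinct roots of `4X³ - g₂X - g₃`: their sum is `0`. -/
theorem IsHalf.sum_e (H : IsHalf L h₁ h₂ h₃) :
    L.weierstrassP h₁ + L.weierstrassP h₂ + L.weierstrassP h₃ = 0 := by
  have r₁ := H.root₁
  have r₂ := H.swap₁₂.root₁
  have r₃ := H.rot.rot.root₁
  have n₁₂ := sub_ne_zero.mpr H.ne₁₂
  have n₁₃ := sub_ne_zero.mpr H.ne₁₃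
  have n₂₃ := sub_ne_zero.mpr H.ne₂₃
  set e₁ := L.weierstrassP h₁
  set e₂ := L.weierstrassP h₂
  set e₃ := L.weierstrassP h₃
  -- `4 (e₁² + e₁ e₂ + e₂²) = g₂`, `4 (e₁² + e₁ e₃ + e₃²) = g₂`
  have a : 4 * (e₁ ^ 2 + e₁ * e₂ + e₂ ^ 2) - L.g₂ = 0 := by
    apply mul_left_cancel₀ n₁₂
    linear_combination r₁ - r₂
  have b : 4 * (e₁ ^ 2 + e₁ * e₃ + e₃ ^ 2) - L.g₂ = 0 := by
    apply mul_left_cancel₀ n₁₃
    linear_combination r₁ - r₃
  have c : 4 * (e₁ + e₂ + e₃) = 4 * 0 := by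
    apply mul_left_cancel₀ n₂₃
    linear_combination a - b
  exact mul_left_cancel₀ (by norm_num) c

theorem IsHalf.g₂_eq (H : IsHalf L h₁ h₂ h₃) :
    L.g₂ = -4 * (L.weierstrassP h₁ * L.weierstrassP h₂ + L.weierstrassP h₁ * L.weierstrassP h₃
      + L.weierstrassP h₂ * L.weierstrassP h₃) := by
  have r₁ := H.root₁
  have r₂ := H.swap₁₂.root₁
  have n₁₂ := sub_ne_zero.mpr H.ne₁₂
  have hs := H.sum_e
  set e₁ := L.weierstrassP h₁
  set e₂ := L.weierstrassP h₂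
  set e₃ := L.weierstrassP h₃
  have a : 4 * (e₁ ^ 2 + e₁ * e₂ + e₂ ^ 2) - L.g₂ = 0 := by
    apply mul_left_cancel₀ n₁₂
    linear_combination r₁ - r₂
  linear_combination -a + 4 * (e₁ + e₂) * hs

theorem IsHalf.g₃_eq (H : IsHalf L h₁ h₂ h₃) :
    L.g₃ = 4 * (L.weierstrassP h₁ * L.weierstrassP h₂ * L.weierstrassP h₃) := by
  have r₁ := H.root₁
  have hg := H.g₂_eq
  have hs := H.sum_e
  set e₁ := L.weierstrassP h₁
  set e₂ := L.weierstrassP h₂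
  set e₃ := L.weierstrassP h₃
  linear_combination -r₁ - e₁ * hg + 4 * e₁ ^ 2 * hs

theorem IsHalf.cubic (H : IsHalf L h₁ h₂ h₃) (X : ℂ) :
    4 * X ^ 3 - L.g₂ * X - L.g₃
      = 4 * ((X - L.weierstrassP h₁) * (X - L.weierstrassP h₂) * (X - L.weierstrassP h₃)) := by
  have hg := H.g₂_eq
  have hg' := H.g₃_eq
  have hs := H.sum_e
  set e₁ := L.weierstrassP h₁
  set e₂ := L.weierstrassP h₂
  set e₃ := L.weierstrassP h₃
  linear_combination -X * hg - hg' + 4 * X ^ 2 * hs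

theorem IsHalf.disc_eq (H : IsHalf L h₁ h₂ h₃) :
    L.g₂ ^ 3 - 27 * L.g₃ ^ 2
      = 16 * ((L.weierstrassP h₁ - L.weierstrassP h₂) * (L.weierstrassP h₁ - L.weierstrassP h₃)
          * (L.weierstrassP h₂ - L.weierstrassP h₃)) ^ 2 := by
  have hg := H.g₂_eq
  have hg' := H.g₃_eq
  have hs := H.sum_e
  set e₁ := L.weierstrassP h₁
  set e₂ := L.weierstrassP h₂
  set e₃ := L.weierstrassP h₃
  have he₃ : e₃ = -e₁ - e₂ := by linear_combination hs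
  rw [hg, hg', he₃]
  ring

theorem disc_ne_zero (L : PeriodPair) : L.g₂ ^ 3 - 27 * L.g₃ ^ 2 ≠ 0 := by
  have H := isHalf_std L
  rw [H.disc_eq]
  have n₁₂ := sub_ne_zero.mpr H.ne₁₂
  have n₁₃ := sub_ne_zero.mpr H.ne₁₃
  have n₂₃ := sub_ne_zero.mpr H.ne₂₃
  exact mul_ne_zero (by norm_num) (pow_ne_zero 2 (mul_ne_zero (mul_ne_zero n₁₂ n₁₃) n₂₃))

end Fermat.Agent.S15.Dict.AN
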